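import Fermat.Agent.Ribet.H558.DKLevel

/-!
# Row 38 / S33, WALL-p, (S2), leaf **DK** at READY levels: descent (helper558)

* `deepKummerReady_h558` : DK with `5 ≤ p` replaced by `p ≠ 2`, `p = 3 → 2 ∣ M'`
  (= `S33.H849.DeepKummerReadyStatement`, spelled out);
* `deepKummer_h558 : H220.DeepKummerStatement`.

The data `f, g₁, y₁, g₂, y₂` and a primitive `p`-th root of unity live over a good level `E`
(`IF.H429.ifStatement`, `T1.H669.exists_finset_descent`); Gauss descent `H216.gaussDescent`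
brings `y₁ ∈ V∞`, `y₂ ∈ V₀ = V∞ ∘ w_N` (through `H553.iota_wE`) down to `E`; then
`dkLevel_h558`.
-/

set_option autoImplicit false
set_option linter.unusedSectionVars false
set_option linter.unusedVariables false
set_option linter.style.haveILetI false
set_option synthInstance.maxHeartbeats 400000
set_option maxHeartbeats 1600000

noncomputable section

namespace Fermat.Agent.Ribet.H558

open AlgebraicCurve ModularCurve
open Fermat.Agent.S24 Fermat.Agent.A2.H708 Fermat.Agent.A2.H528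
open Fermat.Agent.Ribet.H944.Wall Fermat.Agent.Ribet.H220

/-- The two copies of the comparison map `F_E → F̄` agree. -/
theorem iota849_eq_h558 (E : IntermediateField ℚ (AlgebraicClosure ℚ))
    (F₀ : IntermediateField ℚ (LaurentSeries ℚ)) (x : ↥(laurentBaseChange E F₀)) :
    Fermat.Agent.A2.T1.H849.iota E F₀ x = Fermat.Agent.A2.T1.H669.iota E F₀ x :=
  Subtype.ext rfl

/-- A root of unity lies in every valuation subring. -/
theorem mem_of_pow_eq_one_h558 {K : Type*} [Field K] (A : ValuationSubring K) {ζ : K} {n : ℕ}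
    (hn : 0 < n) (h : ζ ^ n = 1) : ζ ∈ A := by
  rcases A.mem_or_inv_mem ζ with h1 | h1
  · exact h1
  · have h2 : ζ * ζ ^ (n - 1) = 1 := by
      rw [← pow_succ', Nat.sub_add_cancel hn]
      exact h
    have h3 : ζ = (ζ⁻¹) ^ (n - 1) := by
      rw [inv_pow]
      exact eq_inv_of_mul_eq_one_left h2
    rw [h3]
    exact pow_mem h1 _

/-- **DK at READY levels** (`S33.H849.DeepKummerReadyStatement`, spelled out). -/
theorem deepKummerReady_h558 :
    ∀ (p M' : ℕ) [NeZero M'] [NeZero p] [NeZero (p * M')] (hp : p.Prime), p ≠ 2 →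
      (p = 3 → 2 ∣ M') → ¬ p ∣ M' →
      ∀ (A : ValuationSubring Kbar) (hA : A.LiesOverPrime p),
      ∀ σ ∈ A.inertiaSubgroupIn ℚ, ∀ c : ℕ, CycloAt p σ c →
      ∀ f : FF (p * M'), f ≠ 0 → (∀ v : Place Kbar (FF (p * M')), (p : ℤ) ∣ v.ord f) →
        Deep (Vinf (p * M') A hp.ne_zero hA) p (cF (p * M') ((p : Kbar) ^ 2)) f →
        Deep (Vzero (p * M') A hp.ne_zero hA) p (cF (p * M') ((p : Kbar) ^ 2)) f →
        ∃ (y : FF (p * M')) (a : Kbar), a ≠ 0 ∧ y ≠ 0 ∧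
          arithmeticRingAut (modularFunctionFieldFull (p * M')) σ f =
            algebraMap Kbar (FF (p * M')) a * y ^ p * f ^ c := by
  intro p M' _ _ _ hp hp2 h3 hpM A hA σ hσ c hc f hf0 hord hI hZ
  classical
  obtain ⟨g₁, u₁, hg₁, hfu₁, y₁, hy₁, hu₁⟩ := hI
  obtain ⟨g₂, u₂, hg₂, hfu₂, y₂, hy₂, hu₂⟩ := hZ
  subst hu₁ hu₂
  set F₀ := modularFunctionFieldFull (p * M') with hF₀
  -- the finite sets of constants
  obtain ⟨Sf, hSf⟩ := Fermat.Agent.A2.T1.H669.exists_finset_descent F₀ f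
  obtain ⟨Sg₁, hSg₁⟩ := Fermat.Agent.A2.T1.H669.exists_finset_descent F₀ g₁
  obtain ⟨Sy₁, hSy₁⟩ := Fermat.Agent.A2.T1.H669.exists_finset_descent F₀ y₁
  obtain ⟨Sg₂, hSg₂⟩ := Fermat.Agent.A2.T1.H669.exists_finset_descent F₀ g₂
  obtain ⟨Sy₂, hSy₂⟩ := Fermat.Agent.A2.T1.H669.exists_finset_descent F₀ y₂
  haveI : NeZero ((p : ℕ) : AlgebraicClosure ℚ) := ⟨Nat.cast_ne_zero.2 hp.ne_zero⟩
  obtain ⟨ζ, hζ⟩ := HasEnoughRootsOfUnity.exists_primitiveRoot (AlgebraicClosure ℚ) p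
  -- the good level
  obtain ⟨E, hSE, hE⟩ := Fermat.Agent.A2.IF.H429.ifStatement p hp A hA
    (Sf ∪ Sg₁ ∪ Sy₁ ∪ Sg₂ ∪ Sy₂ ∪ {ζ})
  obtain ⟨f', hf'⟩ := hSf E (fun s hs => hSE s (by simp [hs]))
  obtain ⟨g₁', hg₁'⟩ := hSg₁ E (fun s hs => hSE s (by simp [hs]))
  obtain ⟨y₁', hy₁'⟩ := hSy₁ E (fun s hs => hSE s (by simp [hs]))
  obtain ⟨g₂', hg₂'⟩ := hSg₂ E (fun s hs => hSE s (by simp [hs]))
  obtain ⟨y₂', hy₂'⟩ := hSy₂ E (fun s hs => hSE s (by simp [hs]))
  have hζE : ζ ∈ E := hSE ζ (by simp)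
  have hζA : ζ ∈ A := mem_of_pow_eq_one_h558 A hp.pos hζ.pow_eq_one
  -- the root of unity in `R_E`
  set ζR : ↥(Fermat.Agent.A2.RE A E) := ⟨⟨ζ, hζE⟩, hζA⟩ with hζR
  have hinj : Function.Injective
      ((algebraMap E (AlgebraicClosure ℚ)).comp (Fermat.Agent.A2.RE A E).subtype) :=
    (algebraMap E (AlgebraicClosure ℚ)).injective.comp Subtype.val_injective
  have hζR' : IsPrimitiveRoot ζR p :=
    IsPrimitiveRoot.of_map_of_injective
      (f := (algebraMap E (AlgebraicClosure ℚ)).comp (Fermat.Agent.A2.RE A E).subtype)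
      (by exact hζ) hinj
  have hk : Fermat.Agent.A2.T1.H669.resR hE σ hσ ζR = ζR ^ c := by
    apply Subtype.ext
    apply Subtype.ext
    show σ ζ = (((ζR ^ c : ↥(Fermat.Agent.A2.RE A E)) : E) : AlgebraicClosure ℚ)
    rw [hc ζ hζ.pow_eq_one]
    simp [hζR]
  obtain ⟨V, W, hV, hW, hlevel⟩ := dkLevel_h558 A E p M' hp hp2 h3 hpM hA hE ζR hζR' σ hσ c hk
  -- descent of the hypotheses
  have hf'0 : f' ≠ 0 := by
    rintro rfl
    exact hf0 (by rw [← hf', map_zero])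
  have hg₁'0 : g₁' ≠ 0 := by
    rintro rfl
    exact hg₁ (by rw [← hg₁', map_zero])
  have hg₂'0 : g₂' ≠ 0 := by
    rintro rfl
    exact hg₂ (by rw [← hg₂', map_zero])
  have hdiv : Fermat.Agent.A2.DivisibleDiv E p f' :=
    Fermat.Agent.A2.T1.H669.divisibleDiv_of_ord E F₀ p f' hf'0
      (fun v => by rw [hf']; exact hord v)
  have hcast : cF (p * M') ((p : Kbar) ^ 2) = ((p : ℕ) : FF (p * M')) ^ 2 := by
    rw [cF, map_pow, map_natCast]
  have hrel : ∀ (g y : FF (p * M')) (g' y' : ↥(Fermat.Agent.A2.FE E (p * M'))),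
      Fermat.Agent.A2.T1.H669.iota E F₀ g' = g → Fermat.Agent.A2.T1.H669.iota E F₀ y' = y →
      f = g ^ p * (1 + cF (p * M') ((p : Kbar) ^ 2) * y) →
      f' = g' ^ p * (1 + ((p : ℕ) : ↥(Fermat.Agent.A2.FE E (p * M'))) ^ 2 * y') := by
    intro g y g' y' hg hy h
    apply Fermat.Agent.A2.T1.H669.iota_injective E F₀
    rw [hf', h, hcast, map_mul, map_pow, map_add, map_one, map_mul, map_pow, map_natCast, hg, hy]
  have hy₁V : y₁' ∈ V :=
    Fermat.Agent.Ribet.H216.gaussDescent A E (p * M') hp.ne_zero hA hE.dvr V hV y₁'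
      (by rw [hy₁']; exact hy₁)
  have hWeq : W = Fermat.Agent.A2.Mod.H553.wE E (p * M') :=
    Fermat.Agent.A2.Mod.H553.isFricke_unique E (NeZero.ne (p * M')) hW
      (Fermat.Agent.A2.Mod.H553.isFricke_wE E (p * M'))
  have hy₂V : y₂' ∈ V.comap (W : ↥(Fermat.Agent.A2.FE E (p * M')) →+*
      ↥(Fermat.Agent.A2.FE E (p * M'))) := by
    show W y₂' ∈ V
    refine Fermat.Agent.Ribet.H216.gaussDescent A E (p * M') hp.ne_zero hA hE.dvr V hV (W y₂') ?_
    rw [hWeq, ← iota849_eq_h558]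
    have h1 := Fermat.Agent.A2.Mod.H553.iota_wE E (p * M') y₂'
    rw [h1]
    have h2 : Fermat.Agent.A2.Mod.H553.iotaN E (p * M') y₂' = y₂ := by
      rw [← hy₂']
      exact iota849_eq_h558 E F₀ y₂'
    rw [h2]
    exact hy₂
  obtain ⟨h, hh0, hh⟩ := hlevel f' hf'0 hdiv
    ⟨g₁', y₁', hg₁'0, hy₁V, hrel g₁ y₁ g₁' y₁' hg₁' hy₁' hfu₁⟩
    ⟨g₂', y₂', hg₂'0, hy₂V, hrel g₂ y₂ g₂' y₂' hg₂' hy₂' hfu₂⟩
  -- push to `F̄`
  have h1 := congrArg (Fermat.Agent.A2.T1.H669.iota E F₀) hh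
  rw [map_mul, map_pow, map_pow,
    Fermat.Agent.A2.T1.H669.iota_arithmeticRingAut E F₀ σ (hE.res σ hσ) (fun e => rfl), hf']
    at h1
  refine ⟨Fermat.Agent.A2.T1.H669.iota E F₀ h, 1, one_ne_zero,
    Fermat.Agent.A2.T1.H669.iota_ne_zero E F₀ hh0, ?_⟩
  rw [map_one, one_mul]
  exact h1

/-- **DK** (`H220.DeepKummerStatement`), from the READY form. -/
theorem deepKummer_h558 : Fermat.Agent.Ribet.H220.DeepKummerStatement := by
  intro p M' _ _ _ hp hp5 hpM A hA σ hσ c hc f hf0 hord hI hZ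
  exact deepKummerReady_h558 p M' hp (by omega) (by omega) hpM A hA σ hσ c hc f hf0 hord hI hZ

end Fermat.Agent.Ribet.H558

end
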