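import Fermat.Agent.Ribet.H220.S2Glue
import Fermat.Agent.Ribet.H573.WeakApprox
import Fermat.Agent.Ribet.H279.NormContr
import Fermat.Agent.Ribet.H558.DK

/-!
# Row 38, WALL-p: **(S2) for `p ≥ 5`, UNCONDITIONAL** (helper558)

`s2Five : H220.S2FiveStatement` (= `H943.Final2.S2Statement5`) from the three leaves of the chain
of `Ribet/H220/S2Spec.lean`, all on main:
SL `H573.splitLift`, NC `H279.NC.normContr`, DK `H558.deepKummer_h558`.
-/

set_option autoImplicit false

namespace Fermat.Agent.Ribet.H558

/-- **(S2) for `p ≥ 5`**, unconditional. -/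
theorem s2Five : Fermat.Agent.Ribet.H220.S2FiveStatement :=
  Fermat.Agent.Ribet.H220.s2Five_of_chain Fermat.Agent.Ribet.H573.splitLift
    Fermat.Agent.Ribet.H279.NC.normContr deepKummer_h558

end Fermat.Agent.Ribet.H558
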