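import Fermat.Agent.Ribet.H220.S2Spec
import Fermat.Agent.Ribet.H883.DKCore
import Fermat.Agent.Ribet.H862.StdModel
import Fermat.Agent.Ribet.H216.GaussDescent
import Fermat.Agent.Ribet.H552.AlgPFinal
import Fermat.Agent.A2.IF.H429.IF
import Fermat.Agent.A2.Mod.H553.Fricke
import Fermat.Agent.A2.Alg.H34.Basic
import Fermat.Agent.A2.T1.H669.T1

/-!
# Row 38 / S33, WALL-p, (S2), leaf **DK** at READY levels (helper558)

`deepKummerReady_h558` : the leaf DK of `Ribet/H220/S2Spec.lean` with `5 ≤ p` replaced by `p ≠ 2`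
and `p = 3 → 2 ∣ M'` (the statement `S33.H849.DeepKummerReadyStatement`, spelled out), and
`deepKummer_h558 : H220.DeepKummerStatement`.

Proof = level glue + descent:

* `dkLevel_h558` (a good level `E ∋ ζ_p`): the standard semistable model with its cut data
  (`H862.stdModel`), ALG-p (`H552.algP`) and the abstract core `H883.DK.dkCore_sq`;
* descent: the data `f, g₁, y₁, g₂, y₂` and `ζ_p` live over a good level (`IF.H429.ifStatement`,
  `T1.H669.exists_finset_descent`), Gauss descent `H216.gaussDescent` for `V∞`, and for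
  `V₀ = V∞ ∘ w_N` through `H553.iota_wE`.
-/

set_option autoImplicit false
set_option linter.unusedSectionVars false
set_option linter.unusedVariables false
set_option linter.style.haveILetI false
set_option synthInstance.maxHeartbeats 400000
set_option maxHeartbeats 1600000

noncomputable section

namespace Fermat.Agent.Ribet.H558

open AlgebraicCurve ModularCurve
open Fermat.Agent.A2 Fermat.Agent.A2.Alg

/-- **DK at a good level.**  `E` a good level for `A` (over `p` odd, `p ∤ M'`, `p = 3 → 2 ∣ M'`)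
containing a primitive `p`-th root of unity `ζ`, `σ` in the inertia group of `A` with
`σ ζ = ζ ^ c`.  There are `V = V∞` and the Fricke involution `W` of `F_{p M', E}` such that every
`f` with `p ∣ div f` which is a `p`-th power times an element of `1 + p² V` at `V∞` and at
`V₀ = V∞ ∘ W` satisfies `σ f = h ^ p · f ^ c`. -/
theorem dkLevel_h558 (A : ValuationSubring (AlgebraicClosure ℚ))
    (E : IntermediateField ℚ (AlgebraicClosure ℚ)) (p M' : ℕ) [NeZero M'] [NeZero p]
    [NeZero (p * M')] (hp : p.Prime) (hp2 : p ≠ 2) (h3 : p = 3 → 2 ∣ M') (hpM : ¬ p ∣ M')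
    (hA : A.LiesOverPrime p) (hE : GoodField A E) (ζ : RE A E) (hζ : IsPrimitiveRoot ζ p)
    (σ : AlgebraicClosure ℚ ≃ₐ[ℚ] AlgebraicClosure ℚ) (hσ : σ ∈ A.inertiaSubgroupIn ℚ) (c : ℕ)
    (hk : T1.H669.resR hE σ hσ ζ = ζ ^ c) :
    ∃ (V : ValuationSubring (FE E (p * M'))) (W : FE E (p * M') ≃ₐ[E] FE E (p * M')),
      Mod.IsVinf A E (p * M') V ∧ Mod.IsFricke E (p * M') W ∧
      ∀ f : FE E (p * M'), f ≠ 0 → DivisibleDiv E p f →
        (∃ g y : FE E (p * M'), g ≠ 0 ∧ y ∈ V ∧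
          f = g ^ p * (1 + (p : FE E (p * M')) ^ 2 * y)) →
        (∃ g y : FE E (p * M'), g ≠ 0 ∧
          y ∈ V.comap (W : FE E (p * M') →+* FE E (p * M')) ∧
          f = g ^ p * (1 + (p : FE E (p * M')) ^ 2 * y)) →
        ∃ h : FE E (p * M'), h ≠ 0 ∧
          arithmeticRingAut (modularFunctionFieldFull (p * M')) (hE.res σ hσ) f =
            h ^ p * f ^ c := by
  haveI : IsDiscreteValuationRing ↥(RE A E) := hE.dvr
  haveI : HenselianLocalRing ↥(RE A E) := hE.henselian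
  haveI : IsAlgClosed (IsLocalRing.ResidueField ↥(RE A E)) := hE.algClosed
  have hq2 : ¬ p ^ 2 ∣ p * M' := by
    intro h
    rw [pow_two] at h
    exact hpM ((Nat.mul_dvd_mul_iff_left hp.pos).1 h)
  have h3N : p = 3 → 2 ∣ p * M' := fun h => Dvd.dvd.mul_left (h3 h) p
  have h2N : p = 2 → 3 ∣ p * M' := fun h => absurd h hp2
  obtain ⟨D, V, W, hDx, hV, hW, hcut⟩ :=
    Fermat.Agent.Ribet.H862.stdModel A E (p * M') p hp (Dvd.intro M' rfl) hq2
      (NeZero.ne (p * M')) h3N h2N hA hE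
  obtain ⟨w, hw⟩ := IsDiscreteValuationRing.exists_irreducible ↥(RE A E)
  obtain ⟨cf, ci, hcf, hci⟩ := hcut w hw
  refine ⟨V, W, hV, hW, fun f hf hdiv h₁ h₂ => ?_⟩
  set F₀ := modularFunctionFieldFull (p * M') with hF₀
  have hconcl : Fermat.Agent.Ribet.H495.AlgP.AlgPConclusion E D.Bf D.Bi cf ci p (ζ - 1) c
      (arithmeticRingAut F₀ (hE.res σ hσ)) :=
    Fermat.Agent.Ribet.H552.algP (R := ↥(RE A E)) (E := E) (F := ↥(FE E (p * M'))) w hw p hp hp2
      (T1.H669.natCast_mem_maximalIdeal_RE E hA) ζ hζ D.x D.hx D.hfin D.hconst D.Bf D.Bi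
      D.hBf D.hBi cf ci
      (arithmeticRingAut F₀ (hE.res σ hσ))
      (hE.res σ hσ).toRingEquiv (T1.H669.resR hE σ hσ)
      (fun e => arithmeticRingAut_algebraMap F₀ (hE.res σ hσ) e)
      (fun r => rfl)
      (D.hτf hE σ hσ w hw) (D.hτi hE σ hσ w hw)
      c hk
  exact Fermat.Agent.Ribet.H883.DK.dkCore_sq (E := E) w hw p hp hp2
    (T1.H669.natCast_mem_maximalIdeal_RE E hA) ζ hζ D.x D.Bf D.Bi
    ⟨hw, D.hx, D.hfin, D.hconst, D.hBf⟩
    (Fermat.Agent.A2.Alg.H34.chartCtx_inv w hw D.x D.hx D.hfin D.hconst D.Bi D.hBi)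
    cf ci V (V.comap (W : FE E (p * M') →+* FE E (p * M')))
    hcf.le₁ hcf.le₂ hcf.cut₁ hcf.cut₂ hci.le₁ hci.le₂ hci.cut₁ hci.cut₂
    c (arithmeticRingAut F₀ (hE.res σ hσ)) hconcl f hf hdiv h₁ h₂

end Fermat.Agent.Ribet.H558

end
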